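import Mathlib
import Fermat.Prelude.Def_FormalHecke_Eigensystem

/-!
# The multiplicative sequence with prescribed values at the primes

`a(ℓ^(k+2)) = c ℓ · a(ℓ^(k+1)) - e ℓ · a(ℓ^k)` and multiplicativity determine `a`.
-/

set_option autoImplicit false

namespace FLTAgent.LT.Lattice

variable {R : Type*} [CommRing R] (e c : ℕ → R)

/-- The values at the powers of one prime. -/
def eulerTerm (ℓ : ℕ) : ℕ → R
  | 0 => 1
  | 1 => c ℓ
  | k + 2 => c ℓ * eulerTerm ℓ (k + 1) - e ℓ * eulerTerm ℓ k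

/-- The sequence. -/
def formalSeq (n : ℕ) : R :=
  if n = 0 then 0 else n.factorization.prod (eulerTerm e c)

theorem formalSeq_zero : formalSeq e c 0 = 0 := if_pos rfl

theorem formalSeq_one : formalSeq e c 1 = 1 := by
  rw [formalSeq, if_neg one_ne_zero, Nat.factorization_one, Finsupp.prod_zero_index]

theorem formalSeq_mul {m n : ℕ} (h : m.Coprime n) :
    formalSeq e c (m * n) = formalSeq e c m * formalSeq e c n := by
  rcases eq_or_ne m 0 with rfl | hm
  · rw [zero_mul, formalSeq_zero, zero_mul]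
  rcases eq_or_ne n 0 with rfl | hn
  · rw [mul_zero, formalSeq_zero, mul_zero]
  rw [formalSeq, if_neg (mul_ne_zero hm hn), formalSeq, if_neg hm, formalSeq, if_neg hn,
    Nat.factorization_mul hm hn, Finsupp.prod_add_index_of_disjoint]
  rw [Nat.support_factorization, Nat.support_factorization]
  exact h.disjoint_primeFactors

theorem formalSeq_pow {ℓ : ℕ} (hℓ : ℓ.Prime) (k : ℕ) :
    formalSeq e c (ℓ ^ k) = eulerTerm e c ℓ k := by
  rw [formalSeq, if_neg (pow_ne_zero _ hℓ.ne_zero), hℓ.factorization_pow,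
    Finsupp.prod_single_index rfl]

theorem formalSeq_prime {ℓ : ℕ} (hℓ : ℓ.Prime) : formalSeq e c ℓ = c ℓ :=
  (congrArg (formalSeq e c) (pow_one ℓ).symm).trans (formalSeq_pow e c hℓ 1)

theorem isEigensystem_formalSeq : FormalHecke.IsEigensystem e (formalSeq e c) := by
  refine ⟨formalSeq_one e c, fun ℓ hℓ n => ?_⟩
  rcases eq_or_ne n 0 with rfl | hn
  · simp [formalSeq_zero]
  obtain ⟨k, m, hm, rfl⟩ := Nat.exists_eq_pow_mul_and_not_dvd hn ℓ hℓ.ne_one
  have hcop : ∀ j, (ℓ ^ j).Coprime m := fun j => (hℓ.coprime_iff_not_dvd.2 hm).pow_left j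
  rw [← mul_assoc, ← pow_succ', formalSeq_mul e c (hcop _), formalSeq_mul e c (hcop k),
    formalSeq_pow e c hℓ, formalSeq_pow e c hℓ, formalSeq_prime e c hℓ]
  rcases k with _ | k
  · rw [if_neg (by simpa using hm)]
    simp [eulerTerm]
  · rw [if_pos (dvd_mul_of_dvd_left (dvd_pow_self ℓ k.succ_ne_zero) m),
      show ℓ ^ (k + 1) * m / ℓ = ℓ ^ k * m by
        rw [pow_succ', mul_assoc, Nat.mul_div_cancel_left _ hℓ.pos],
      formalSeq_mul e c (hcop k), formalSeq_pow e c hℓ]
    simp only [eulerTerm]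
    ring

/-- A multiplicative sequence with the same recursions at the prime powers is the image. -/
theorem eq_map_formalSeq {S : Type*} [CommRing S] (ψ : R →+* S) (g : ℕ → S) (h0 : g 0 = 0)
    (h1 : g 1 = 1) (hmul : ∀ m n : ℕ, m.Coprime n → g (m * n) = g m * g n)
    (hp : ∀ ℓ : ℕ, ℓ.Prime → g ℓ = ψ (c ℓ))
    (hrec : ∀ ℓ r : ℕ, ℓ.Prime →
      g (ℓ ^ (r + 2)) = g ℓ * g (ℓ ^ (r + 1)) - ψ (e ℓ) * g (ℓ ^ r)) (n : ℕ) :
    g n = ψ (formalSeq e c n) := by
  induction n using Nat.recOnPrimeCoprime with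
  | zero => rw [h0, formalSeq_zero, map_zero]
  | prime_pow p k hpp =>
    rw [formalSeq_pow e c hpp]
    induction k using Nat.twoStepInduction with
    | zero => rw [pow_zero, h1, eulerTerm, map_one]
    | one => rw [pow_one, hp p hpp, eulerTerm]
    | more r ih1 ih2 => rw [hrec p r hpp, hp p hpp, ih1, ih2, eulerTerm, map_sub, map_mul, map_mul]
  | coprime a b _ _ hab iha ihb => rw [hmul a b hab, formalSeq_mul e c hab, map_mul, iha, ihb]

end FLTAgent.LT.Lattice
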