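import Fermat.Agent.Quick.BridgeLift
import Fermat.Agent.IntegralStructure.Duality
import Fermat.Agent.LT.Exit.WeightTwo

/-!
# An eigensystem defined over `ℤ` modulo three is realised in the integral lattice

A normalised eigenform whose coefficients are congruent to integers modulo a prime above `3`
gives an additive functional on the Hecke algebra, hence an integral form, congruent to it.
-/

set_option autoImplicit false

noncomputable section

namespace FLTAgent.LT.Lattice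

open CongruenceSubgroup ModularFormClass EisensteinWeightOne

local notation "Zc" => integralClosure ℤ ℂ

theorem three_dvd_of_mem (𝔪 : Ideal Zc) (hne : 𝔪 ≠ ⊤) (h3 : ((3 : ℕ) : Zc) ∈ 𝔪) {x : ℤ}
    (hx : (x : Zc) ∈ 𝔪) : (3 : ℤ) ∣ x := by
  by_contra h
  obtain ⟨u, v, huv⟩ := ((Int.prime_three.coprime_iff_not_dvd).2 h)
  apply hne
  rw [Ideal.eq_top_iff_one, show (1 : Zc) = (u : Zc) * ((3 : ℕ) : Zc) + (v : Zc) * (x : Zc) by
    rw [← Int.cast_one, ← huv]; push_cast; rfl]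
  exact 𝔪.add_mem (𝔪.mul_mem_left _ h3) (𝔪.mul_mem_left _ hx)

variable {N : ℕ}

theorem hasIntegralBasis_of_neZero [NeZero N] : CuspForm.HasIntegralBasis N := by
  refine top_unique ((IntegralStructure.hasIntegralStructure N 2).ge.trans
    (Submodule.span_mono fun f hf => ?_))
  exact Quick.mem_qIntegralSet_iff.mpr (Quick.mem_intLattice_iff.mp hf)

/-- The bridge product is congruent to the sequence modulo three. -/
theorem three_dvd_bridgeProduct_sub (a : ℕ → ℤ) (n : ℕ) :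
    (3 : ℤ) ∣ (bridgeProduct a).coeff n - a n := by
  rw [show (3 : ℤ) = ((3 : ℕ) : ℤ) from rfl, ← ZMod.intCast_eq_intCast_iff_dvd_sub _ _ 3,
    bridgeProduct, PowerSeries.coeff_mul]
  push_cast
  rw [Finset.sum_eq_single (n, 0)]
  · simp only [PowerSeries.coeff_mk, e1Chi3In, PowerSeries.coeff_map, Int.coe_castRingHom,
      Int.cast_id]
    rw [Exit.e1Chi3_mod_three, if_pos rfl, mul_one]
  · rintro ⟨i, j⟩ hij hne
    simp only [PowerSeries.coeff_mk, e1Chi3In, PowerSeries.coeff_map, Int.coe_castRingHom,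
      Int.cast_id]
    rw [Exit.e1Chi3_mod_three, if_neg, mul_zero]
    rintro rfl
    exact hne (by simp_all)
  · exact fun h => absurd (Finset.HasAntidiagonal.mem_antidiagonal.mpr (add_zero n)) h

variable [NeZero N] {h : CuspForm (Gamma0 N) 2}

/-- **Realisation.** -/
theorem isLatticeRealized_of_congr (hh : h.IsNormalizedEigenform) (𝔪 : Ideal Zc) (hne : 𝔪 ≠ ⊤)
    (h3 : ((3 : ℕ) : Zc) ∈ 𝔪) (a : ℕ → ℤ)
    (ha : ∀ n, ∃ z : Zc, (z : ℂ) = qCoeff h n ∧ z - (a n : Zc) ∈ 𝔪) :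
    CuspForm.IsLatticeRealized N a := by
  classical
  have := IntegralStructure.moduleFree_heckeAlgebra N 2 ∅
  have := Quick.moduleFinite_heckeAlgebra N ∅ (IntegralStructure.hasIntegralStructure N 2)
  let χ : CuspForm.heckeAlgebra N 2 ∅ →+* Zc :=
    Quick.toIntegralClosure (Quick.eigenformChar hh ∅)
  set π : CuspForm.heckeAlgebra N 2 ∅ →+* Zc ⧸ 𝔪 := (Ideal.Quotient.mk 𝔪).comp χ with hπ
  have hprime : ∀ (p : ℕ) (z : Zc), (z : ℂ) = qCoeff h p → ∀ w : Zc, (w : ℂ) = qCoeff h p →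
      Ideal.Quotient.mk 𝔪 w = Ideal.Quotient.mk 𝔪 z := fun p z hz w hw => by
    rw [Subtype.ext (hw.trans hz.symm) (a1 := w) (a2 := z)]
  have hint : ∀ t, ∃ z : ℤ, π t = z := by
    rintro ⟨t, ht⟩
    induction ht using Algebra.adjoin_induction with
    | mem x hx =>
      rcases hx with ⟨ℓ, hℓ, hℓN, hℓS, rfl⟩ | ⟨q, hqN, hq, hqS, rfl⟩
      · obtain ⟨z, hz, hzm⟩ := ha ℓ
        refine ⟨a ℓ, ?_⟩
        rw [hπ, RingHom.comp_apply, hprime ℓ z hz _ (Quick.eigenformChar_T hh hℓ hℓN hℓS),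
          Ideal.Quotient.eq.2 hzm, map_intCast]
      · obtain ⟨z, hz, hzm⟩ := ha q
        refine ⟨a q, ?_⟩
        rw [hπ, RingHom.comp_apply, hprime q z hz _ (Quick.eigenformChar_U hh hq hqN hqS),
          Ideal.Quotient.eq.2 hzm, map_intCast]
    | algebraMap r =>
      exact ⟨r, (congrArg π (show (⟨_, _⟩ : CuspForm.heckeAlgebra N 2 ∅) = (r : _) from
        Subtype.ext (by simp))).trans (map_intCast π r)⟩
    | add x y hx hy ihx ihy =>
      obtain ⟨u, hu⟩ := ihx
      obtain ⟨v, hv⟩ := ihy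
      refine ⟨u + v, ?_⟩
      rw [show (⟨x + y, add_mem hx hy⟩ : CuspForm.heckeAlgebra N 2 ∅) = ⟨x, hx⟩ + ⟨y, hy⟩
        from rfl, map_add, hu, hv, Int.cast_add]
    | mul x y hx hy ihx ihy =>
      obtain ⟨u, hu⟩ := ihx
      obtain ⟨v, hv⟩ := ihy
      refine ⟨u * v, ?_⟩
      rw [show (⟨x * y, mul_mem hx hy⟩ : CuspForm.heckeAlgebra N 2 ∅) = ⟨x, hx⟩ * ⟨y, hy⟩
        from rfl, map_mul, hu, hv, Int.cast_mul]
  choose z hz using hint
  let b := Module.finBasis ℤ (CuspForm.heckeAlgebra N 2 ∅)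
  let φ : Module.Dual ℤ (CuspForm.heckeAlgebra N 2 ∅) := b.constr ℤ fun i => z (b i)
  have hφ : ∀ t, π t = (φ t : Zc ⧸ 𝔪) := by
    have : π.toAddMonoidHom.toIntLinearMap =
        (Int.castAddHom (Zc ⧸ 𝔪)).toIntLinearMap ∘ₗ φ :=
      b.ext fun i => by
        show π (b i) = ((φ (b i) : ℤ) : Zc ⧸ 𝔪)
        rw [Module.Basis.constr_basis, ← hz]
    exact fun t => LinearMap.congr_fun this t
  obtain ⟨f, hf⟩ := (IntegralStructure.qPairing_bijective (N := N) one_le_two).2 φ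
  refine ⟨f, Quick.mem_qIntegralSet_iff.2 (Quick.mem_intLattice_iff.1 f.2),
    fun n => φ (IntegralStructure.heckeTn one_le_two n), fun n => ?_, fun n => ?_⟩
  · rw [← IntegralStructure.qPairing_heckeTn one_le_two f n, hf]
  obtain ⟨w, hw, hwm⟩ := ha n
  have key : π (IntegralStructure.heckeTn one_le_two n) = (a n : Zc ⧸ 𝔪) := by
    rw [hπ, RingHom.comp_apply,
      hprime n w hw _ (IntegralStructure.qCoeff_one_heckeTn one_le_two n h),
      Ideal.Quotient.eq.2 hwm, map_intCast]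
  have h1 : (3 : ℤ) ∣ φ (IntegralStructure.heckeTn one_le_two n) - a n := by
    refine three_dvd_of_mem 𝔪 hne h3 (Ideal.Quotient.eq_zero_iff_mem.1 ?_)
    rw [map_intCast, Int.cast_sub, ← hφ, key, sub_self]
  have h2 := three_dvd_bridgeProduct_sub a n
  simpa only [sub_sub_sub_cancel_right] using h1.sub h2

end FLTAgent.LT.Lattice
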