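import Fermat.Agent.Oldform.DegMap
import Fermat.Agent.Quick.HeckeEigenform

/-!
# Removing the coefficients at the primes of the level

`g(τ) - a_q g(qτ) + q g(q²τ)` (two terms if `q` divides the level) is an eigenform whose `n`th
coefficient vanishes for `q ∣ n` and is that of `g` otherwise.
-/

set_option autoImplicit false

noncomputable section

namespace FLTAgent.LT.Lattice

open CongruenceSubgroup ModularFormClass FLTAgent.Oldform

variable {M : ℕ} [NeZero M]

omit [NeZero M] in
/-- Multiplicativity and recursions survive deleting the coefficients divisible by a prime of the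
new level. -/
theorem isNormalizedEigenform_of_killed {N q : ℕ} (hq : q.Prime) (hMN : M ∣ N) (hqN : q ∣ N)
    (hsupp : ∀ p : ℕ, p.Prime → p ∣ N → p ∣ M ∨ p = q)
    {g : CuspForm (Gamma0 M) 2} (hg : g.IsNormalizedEigenform) {h : CuspForm (Gamma0 N) 2}
    (hh : ∀ n, qCoeff h n = if q ∣ n then 0 else qCoeff g n) : h.IsNormalizedEigenform := by
  refine ⟨?_, fun m n hmn => ?_, fun p r hp hpN => ?_, fun p r hp hpN => ?_⟩
  · rw [hh, if_neg hq.not_dvd_one]
    exact hg.qCoeff_one
  · rw [hh, hh, hh]
    by_cases hm : q ∣ m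
    · rw [if_pos (hm.mul_right n), if_pos hm, zero_mul]
    · by_cases hn : q ∣ n
      · rw [if_pos (hn.mul_left m), if_pos hn, mul_zero]
      · rw [if_neg (fun h => (hq.dvd_mul.1 h).elim hm hn), if_neg hm, if_neg hn]
        exact hg.qCoeff_mul_of_coprime m n hmn
  · have hpq : p ≠ q := fun e => hpN (e ▸ hqN)
    have hnd : ∀ j, ¬ q ∣ p ^ j := fun j hd =>
      hpq ((Nat.prime_dvd_prime_iff_eq hq hp).1 (hq.dvd_of_dvd_pow hd)).symm
    have hnp : ¬ q ∣ p := by simpa using hnd 1
    rw [hh, hh, hh, hh, if_neg (hnd _), if_neg hnp, if_neg (hnd _), if_neg (hnd _)]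
    exact hg.qCoeff_prime_pow_of_not_dvd p r hp fun hd => hpN (hd.trans hMN)
  · rw [hh, hh, hh]
    rcases eq_or_ne p q with rfl | hpq
    · rw [if_pos (dvd_pow_self p (by omega)), if_pos dvd_rfl, if_pos (dvd_pow_self p (by omega)),
        mul_zero]
    · have hnd : ∀ j, ¬ q ∣ p ^ j := fun j hd =>
        hpq ((Nat.prime_dvd_prime_iff_eq hq hp).1 (hq.dvd_of_dvd_pow hd)).symm
      have hnp : ¬ q ∣ p := by simpa using hnd 1
      rw [if_neg (hnd _), if_neg hnp, if_neg (hnd _)]
      exact hg.qCoeff_prime_pow_of_dvd p r hp ((hsupp p hp hpN).resolve_right hpq)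

/-- Removing the coefficients at one prime. -/
theorem exists_kill {g : CuspForm (Gamma0 M) 2} (hg : g.IsNormalizedEigenform) {q : ℕ}
    (hq : q.Prime) :
    ∃ (N : ℕ) (_ : NeZero N) (h : CuspForm (Gamma0 N) 2),
      N = (if q ∣ M then M * q else M * (q * q)) ∧ h.IsNormalizedEigenform ∧
      ∀ n, qCoeff h n = if q ∣ n then 0 else qCoeff g n := by
  have hq0 : (q : ℂ) ≠ 0 := Nat.cast_ne_zero.2 hq.ne_zero
  have : NeZero q := ⟨hq.ne_zero⟩
  by_cases hqM : q ∣ M
  · set h : CuspForm (Gamma0 (M * q)) 2 := incl (dvd_mul_right M q) g +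
      (-qCoeff g q / q) • degMap hq.ne_zero dvd_rfl g with hh
    have hb : ∀ n, qCoeff h n = if q ∣ n then 0 else qCoeff g n := by
      intro n
      rw [hh, Quick.qCoeff_add', qCoeff_incl, Quick.qCoeff_smul', qCoeff_degMap]
      by_cases hn : q ∣ n
      · rw [if_pos hn, if_pos hn]
        obtain ⟨m, rfl⟩ := hn
        have hU := congrArg (fun f : CuspForm (Gamma0 M) 2 => qCoeff f m)
          (Quick.heckeULin_eigenform hg hq hqM)
        simp only [Quick.qCoeff_heckeULin hq hqM, Quick.qCoeff_smul', mul_comm m q] at hU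
        rw [Nat.mul_div_cancel_left _ hq.pos, hU]
        simp only [show (2 : ℤ) - 1 = 1 by norm_num, zpow_one]
        field_simp
        ring
      · rw [if_neg hn, if_neg hn, mul_zero, add_zero]
    refine ⟨M * q, inferInstance, h, (if_pos hqM).symm,
      isNormalizedEigenform_of_killed hq (dvd_mul_right M q) (dvd_mul_left q M) (fun p hp hpN => ?_)
        hg hb, hb⟩
    exact (hp.dvd_mul.1 hpN).imp id fun h => (Nat.prime_dvd_prime_iff_eq hp hq).1 h
  · have : NeZero (q * q) := ⟨mul_ne_zero hq.ne_zero hq.ne_zero⟩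
    set h : CuspForm (Gamma0 (M * (q * q))) 2 := incl (dvd_mul_right M (q * q)) g +
      (-qCoeff g q / q) • degMap hq.ne_zero (Nat.mul_dvd_mul_left M (dvd_mul_right q q)) g +
      ((q : ℂ)⁻¹) • degMap (mul_ne_zero hq.ne_zero hq.ne_zero) dvd_rfl g with hh
    have hb : ∀ n, qCoeff h n = if q ∣ n then 0 else qCoeff g n := by
      intro n
      rw [hh, Quick.qCoeff_add', Quick.qCoeff_add', qCoeff_incl, Quick.qCoeff_smul', qCoeff_degMap,
        Quick.qCoeff_smul', qCoeff_degMap]
      by_cases hn : q ∣ n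
      · rw [if_pos hn, if_pos hn]
        obtain ⟨m, rfl⟩ := hn
        have hT := congrArg (fun f : CuspForm (Gamma0 M) 2 => qCoeff f m)
          (Quick.heckeTLin_eigenform hg hq hqM)
        simp only [Quick.qCoeff_heckeTLin hq hqM, Quick.qCoeff_smul', mul_comm m q] at hT
        rw [Nat.mul_div_cancel_left _ hq.pos]
        simp only [show (2 : ℤ) - 1 = 1 by norm_num, zpow_one] at hT ⊢
        by_cases hm : q ∣ m
        · obtain ⟨k, rfl⟩ := hm
          rw [if_pos (dvd_mul_right q k), Nat.mul_div_cancel_left _ hq.pos] at hT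
          rw [if_pos ⟨k, by ring⟩, show q * (q * k) / (q * q) = k by
            rw [← mul_assoc, Nat.mul_div_cancel_left _ (Nat.mul_pos hq.pos hq.pos)]]
          push_cast
          field_simp
          linear_combination hT
        · rw [if_neg hm, add_zero] at hT
          rw [if_neg (fun hd => hm (Nat.dvd_of_mul_dvd_mul_left hq.pos hd)), mul_zero, add_zero, hT]
          field_simp
          ring
      · rw [if_neg hn, if_neg hn, if_neg (fun hd => hn ((dvd_mul_right q q).trans hd)), mul_zero,
          mul_zero, add_zero, add_zero]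
    refine ⟨M * (q * q), inferInstance, h, (if_neg hqM).symm,
      isNormalizedEigenform_of_killed hq (dvd_mul_right M _)
        (dvd_mul_of_dvd_right (dvd_mul_right q q) M) (fun p hp hpN => ?_) hg hb, hb⟩
    refine (hp.dvd_mul.1 hpN).imp id fun h => ?_
    rcases hp.dvd_mul.1 h with h | h <;> exact (Nat.prime_dvd_prime_iff_eq hp hq).1 h

/-- Removing the coefficients at a finite set of primes. -/
theorem exists_killSet {g : CuspForm (Gamma0 M) 2} (hg : g.IsNormalizedEigenform) (s : Finset ℕ)
    (hs : ∀ p ∈ s, p.Prime) :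
    ∃ (N : ℕ) (_ : NeZero N) (h : CuspForm (Gamma0 N) 2), M ∣ N ∧ h.IsNormalizedEigenform ∧
      (∀ p : ℕ, p.Prime → p ∣ N → p ∣ M ∨ p ∈ s) ∧ (∀ p ∈ s, p ∣ N) ∧
      (∀ p ∈ s, N.factorization p = if p ∣ M then M.factorization p + 1 else 2) ∧
      (∀ p : ℕ, p ∉ s → N.factorization p = M.factorization p) ∧
      ∀ n, qCoeff h n = if ∃ p ∈ s, p ∣ n then 0 else qCoeff g n := by
  classical
  induction s using Finset.induction with
  | empty =>
    exact ⟨M, inferInstance, g, dvd_rfl, hg, fun p _ h => Or.inl h, by simp, by simp,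
      fun p _ => rfl, fun n => by simp⟩
  | insert q s hqs ih =>
    obtain ⟨N, _, h, hMN, hh, hsupp, hdiv, hin, hout, hco⟩ :=
      ih fun p hp => hs p (Finset.mem_insert_of_mem hp)
    have hq := hs q (Finset.mem_insert_self q s)
    obtain ⟨N', _, h', hN', hh', hco'⟩ := exists_kill hh hq
    have hfq : N.factorization q = M.factorization q := hout q hqs
    have hdq : q ∣ N ↔ q ∣ M := ⟨fun h => (hsupp q hq h).resolve_right hqs, fun h => h.trans hMN⟩
    obtain ⟨k, hk1, hk⟩ : ∃ k : ℕ, 1 ≤ k ∧ N' = N * q ^ k ∧ k = if q ∣ M then 1 else 2 := by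
      by_cases hM : q ∣ M
      · exact ⟨1, le_rfl, by rw [hN', if_pos (hdq.2 hM), pow_one], by rw [if_pos hM]⟩
      · exact ⟨2, by norm_num, by rw [hN', if_neg (hdq.not.2 hM), pow_two], by rw [if_neg hM]⟩
    obtain ⟨hk, hk'⟩ := hk
    have hfact : ∀ p, N'.factorization p = N.factorization p + if p = q then k else 0 := fun p => by
      rw [hk, Nat.factorization_mul (NeZero.ne N) (pow_ne_zero _ hq.ne_zero), Finsupp.add_apply,
        hq.factorization_pow, Finsupp.single_apply]
      simp only [eq_comm]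
    refine ⟨N', inferInstance, h', ?_, hh', fun p hp hpN => ?_, fun p hp => ?_, fun p hp => ?_,
      fun p hp => ?_, fun n => ?_⟩
    · exact hMN.trans (hk ▸ dvd_mul_right N _)
    · rw [hk] at hpN
      rcases hp.dvd_mul.1 hpN with h | h
      · exact (hsupp p hp h).imp id Finset.mem_insert_of_mem
      · exact Or.inr ((Nat.prime_dvd_prime_iff_eq hp hq).1 (hp.dvd_of_dvd_pow h) ▸
          Finset.mem_insert_self q s)
    · rw [hk]
      rcases Finset.mem_insert.1 hp with rfl | hp
      · exact dvd_mul_of_dvd_right (dvd_pow_self p (by omega)) N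
      · exact dvd_mul_of_dvd_left (hdiv p hp) _
    · rw [hfact]
      rcases Finset.mem_insert.1 hp with rfl | hp
      · rw [if_pos rfl, hfq, hk']
        split_ifs with hM
        · rfl
        · rw [Nat.factorization_eq_zero_of_not_dvd hM]
      · rw [if_neg (fun e => hqs (by rwa [e] at hp)), add_zero, hin p hp]
    · rw [Finset.mem_insert, not_or] at hp
      rw [hfact, if_neg hp.1, add_zero, hout p hp.2]
    · rw [hco', hco]
      by_cases hn : q ∣ n
      · rw [if_pos hn, if_pos ⟨q, Finset.mem_insert_self q s, hn⟩]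
      · rw [if_neg hn]
        refine if_congr ⟨fun ⟨p, hp, hd⟩ => ⟨p, Finset.mem_insert_of_mem hp, hd⟩,
          fun ⟨p, hp, hd⟩ => ?_⟩ rfl rfl
        rcases Finset.mem_insert.1 hp with rfl | hp
        · exact absurd hd hn
        · exact ⟨p, hp, hd⟩

end FLTAgent.LT.Lattice
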