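import Fermat.Agent.LT.Lattice.Kill
import Fermat.Agent.LT.Lattice.FormalSeq
import Fermat.Agent.LT.Lattice.Integral
import Fermat.Agent.LT.OctaOfCurve
import Fermat.Agent.LevelLower.Endgame.Dictionary
import Fermat.Agent.RT.Carayol.BaseInst

/-!
# A formal weight one eigensystem from residual modularity modulo three

The exponents away from `3` come down to one, the coefficients at the primes of the level are
deleted (which leaves the level cube free away from `3`), and at every other prime the eigenvalue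
is the trace of Frobenius, with determinant `ℓ ≡ χ₋₃(ℓ)`.
-/

set_option autoImplicit false

noncomputable section

namespace FLTAgent.LT.Lattice

open WeierstrassCurve CongruenceSubgroup ModularFormClass EisensteinWeightOne

local notation "Zc" => integralClosure ℤ ℂ

/-- The eigenvalues at the primes. -/
def primeTrace {W : WeierstrassCurve ℤ} (hΔ : W.Δ ≠ 0) [Fact (Nat.Prime 3)] (N ℓ : ℕ) : ℤ :=
  if ℓ ∣ N then 0 else (LevelLower.Endgame.frobTrace hΔ 3 ℓ : ℤ)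

/-- From residual modularity at any level. -/
theorem exists_formal_of_residual {W : WeierstrassCurve ℤ} (hΔ : W.Δ ≠ 0)
    (hW : W.IsSemistableModel) (hirr : W.ModRepIsIrreducible 3) {N₀ : ℕ} (hN₀ : 0 < N₀)
    (hres : W.IsResiduallyModularOfLevel 3 N₀) :
    ∃ (N : ℕ) (_ : NeZero N) (a : ℕ → ℤ),
      CuspForm.HasIntegralBasis N ∧
      FormalHecke.IsEigensystem
        (fun ℓ => if ℓ ∣ N then 0 else ((chiNegThree ℓ : ℤ) : ℤ)) a ∧
      CuspForm.IsLatticeRealized N a ∧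
      (∀ q : ℕ, q.Prime → q ≠ 3 → ¬ q ^ 3 ∣ N) ∧
      ∀ ℓ : ℕ, ℓ.Prime → W.IsGoodPrimeFor ℓ → ¬ ℓ ∣ N → ℓ ≠ 3 →
        (3 : ℤ) ∣ (a ℓ - W.apOfModel ℓ) := by
  classical
  have : Fact (Nat.Prime 3) := ⟨Nat.prime_three⟩
  obtain ⟨M, hM, hle, -, g, 𝔪, hg, h𝔪, h3, hcong⟩ :=
    RT.Carayol.exists_lowerPow_le_one_inst hΔ hW (by norm_num) hirr hN₀ hres
  have : NeZero M := ⟨hM.ne'⟩
  set s : Finset ℕ := insert 3 M.primeFactors with hs
  have hsp : ∀ p ∈ s, p.Prime := fun p hp => by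
    rcases Finset.mem_insert.1 hp with rfl | hp
    · exact Nat.prime_three
    · exact Nat.prime_of_mem_primeFactors hp
  obtain ⟨N, _, h, hMN, hh, hsupp, hdiv, hin, hout, hco⟩ := exists_killSet hg s hsp
  have hmem : ∀ p : ℕ, p.Prime → (p ∈ s ↔ p ∣ N) := fun p hp =>
    ⟨hdiv p, fun hd => (hsupp p hp hd).elim
      (fun hm => Finset.mem_insert_of_mem (Nat.mem_primeFactors.2 ⟨hp, hm, hM.ne'⟩)) id⟩
  have hcoP : ∀ ℓ : ℕ, ℓ.Prime → qCoeff h ℓ = if ℓ ∣ N then 0 else qCoeff g ℓ := fun ℓ hℓ => by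
    rw [hco]
    refine if_congr ⟨fun ⟨p, hp, hd⟩ => ?_, fun hd => ⟨ℓ, (hmem ℓ hℓ).2 hd, dvd_rfl⟩⟩ rfl rfl
    obtain rfl := (Nat.prime_dvd_prime_iff_eq (hsp p hp) hℓ).1 hd
    exact hdiv p hp
  have h3N : 3 ∣ N := hdiv 3 (Finset.mem_insert_self 3 _)
  let e : ℕ → ℤ := fun ℓ => if ℓ ∣ N then 0 else chiNegThree ℓ
  let a : ℕ → ℤ := formalSeq e (primeTrace hΔ N)
  -- the coefficients as algebraic integers
  have := Quick.moduleFinite_heckeAlgebra N ∅ (IntegralStructure.hasIntegralStructure N 2)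
  let χ : CuspForm.heckeAlgebra N 2 ∅ →+* Zc :=
    Quick.toIntegralClosure (Quick.eigenformChar hh ∅)
  let cf : ℕ → Zc := fun n => χ (IntegralStructure.heckeTn one_le_two n)
  have hcf : ∀ n, (cf n : ℂ) = qCoeff h n := fun n =>
    IntegralStructure.qCoeff_one_heckeTn one_le_two n h
  set π := Ideal.Quotient.mk 𝔪 with hπ
  have h30 : ((3 : ℕ) : Zc ⧸ 𝔪) = 0 := by
    rw [← map_natCast π, hπ, Ideal.Quotient.eq_zero_iff_mem]; exact h3
  have : CharP (Zc ⧸ 𝔪) 3 := by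
    let := Ideal.Quotient.field 𝔪
    exact (CharP.charP_iff_prime_eq_zero Nat.prime_three).2 h30
  have hχ3 : ∀ ℓ : ℕ, ((chiNegThree ℓ : ℤ) : Zc ⧸ 𝔪) = (ℓ : Zc ⧸ 𝔪) := fun ℓ => by
    simpa only [map_intCast, map_natCast] using
      congrArg (ZMod.castHom dvd_rfl (Zc ⧸ 𝔪)) (Quick.chiNegThree_mod_three ℓ)
  have hprime : ∀ ℓ : ℕ, ℓ.Prime → π (cf ℓ) = (primeTrace hΔ N ℓ : Zc ⧸ 𝔪) := fun ℓ hℓ => by
    by_cases hd : ℓ ∣ N
    · rw [primeTrace, if_pos hd, Int.cast_zero,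
        show cf ℓ = 0 from Subtype.ext ((hcf ℓ).trans ((hcoP ℓ hℓ).trans (if_pos hd))), map_zero]
    · have hℓM : ¬ ℓ ∣ M := fun hm => hd (hm.trans hMN)
      have hℓ3 : ℓ ≠ 3 := fun he => hd (he ▸ h3N)
      obtain ⟨z, hz, hzm⟩ := (LevelLower.Endgame.torsMat_of_congr hΔ 3 hg 𝔪 h3 ∅
        (fun l hl hgood hlM hl3 _ => hcong l hl hgood hlM hl3) hℓ hℓM hℓ3).1
      have : cf ℓ = z :=
        Subtype.ext (((hcf ℓ).trans ((hcoP ℓ hℓ).trans (if_neg hd))).trans hz.symm)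
      rw [primeTrace, if_neg hd, this, hπ, Ideal.Quotient.eq.2 hzm, map_natCast, Int.cast_natCast]
  have hall : ∀ n, π (cf n) = (a n : Zc ⧸ 𝔪) := fun n => by
    refine eq_map_formalSeq e (primeTrace hΔ N) (Int.castRingHom (Zc ⧸ 𝔪)) (fun n => π (cf n))
      ?_ ?_ (fun m k hmk => ?_) hprime (fun ℓ r hℓ => ?_) n
    · rw [show cf 0 = 0 from Subtype.ext ((hcf 0).trans (Quick.qCoeff_zero_index h)), map_zero]
    · rw [show cf 1 = 1 from Subtype.ext ((hcf 1).trans hh.qCoeff_one), map_one]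
    · rw [← map_mul π, show cf (m * k) = cf m * cf k from Subtype.ext (by
        rw [hcf]; push_cast; rw [hcf, hcf]; exact hh.qCoeff_mul_of_coprime m k hmk)]
    · show π (cf (ℓ ^ (r + 2))) = π (cf ℓ) * π (cf (ℓ ^ (r + 1))) -
        ((e ℓ : ℤ) : Zc ⧸ 𝔪) * π (cf (ℓ ^ r))
      by_cases hd : ℓ ∣ N
      · rw [show e ℓ = 0 from if_pos hd, Int.cast_zero, zero_mul, sub_zero, ← map_mul π,
          show cf (ℓ ^ (r + 2)) = cf ℓ * cf (ℓ ^ (r + 1)) from Subtype.ext (by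
            rw [hcf]; push_cast; rw [hcf, hcf]; exact hh.qCoeff_prime_pow_of_dvd ℓ r hℓ hd)]
      · rw [show e ℓ = chiNegThree ℓ from if_neg hd, hχ3, ← map_natCast π, ← map_mul π, ← map_mul π,
          ← map_sub π, show cf (ℓ ^ (r + 2)) =
            cf ℓ * cf (ℓ ^ (r + 1)) - (ℓ : Zc) * cf (ℓ ^ r) from Subtype.ext (by
            rw [hcf]; push_cast; rw [hcf, hcf, hcf]
            exact hh.qCoeff_prime_pow_of_not_dvd ℓ r hℓ hd)]
  refine ⟨N, inferInstance, a, hasIntegralBasis_of_neZero,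
    isEigensystem_formalSeq e (primeTrace hΔ N), ?_, fun q hq hq3 hdvd => ?_,
    fun ℓ hℓ hgood hℓN hℓ3 => ?_⟩
  · refine isLatticeRealized_of_congr hh 𝔪 h𝔪.ne_top h3 a fun n => ⟨cf n, hcf n, ?_⟩
    refine Ideal.Quotient.eq.1 ?_
    rw [← hπ, hall n, map_intCast]
  · have h3' := (hq.pow_dvd_iff_le_factorization (NeZero.ne N)).1 hdvd
    have hqs := (hmem q hq).2 ((dvd_pow_self q (by norm_num : 3 ≠ 0)).trans hdvd)
    have hqM : q ∣ M := Nat.dvd_of_mem_primeFactors ((Finset.mem_insert.1 hqs).resolve_left hq3)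
    rw [hin q hqs, if_pos hqM] at h3'
    have := hle q hq3
    omega
  · obtain ⟨z, hz, hzm⟩ := hcong ℓ hℓ hgood (fun hm => hℓN (hm.trans hMN)) hℓ3
    have hzc : cf ℓ = z :=
      Subtype.ext (((hcf ℓ).trans ((hcoP ℓ hℓ).trans (if_neg hℓN))).trans hz.symm)
    refine three_dvd_of_mem 𝔪 h𝔪.ne_top h3 (Ideal.Quotient.eq_zero_iff_mem.1 ?_)
    rw [map_intCast, Int.cast_sub, ← hall ℓ, hzc, hπ, Ideal.Quotient.eq.2 hzm, map_intCast, sub_self]

/-- The statement of `S46`, from the weight one conclusion of Langlands-Tunnell. -/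
theorem latticeRealized_of_ltConclusion (hLT : ∀ d : Octa, LTConclusion d) :
    ∀ W : WeierstrassCurve ℤ, W.Δ ≠ 0 → W.IsSemistableModel → W.ModRepIsIrreducible 3 →
      ∃ (N : ℕ) (_ : NeZero N) (a : ℕ → ℤ),
        CuspForm.HasIntegralBasis N ∧
        FormalHecke.IsEigensystem
          (fun ℓ => if ℓ ∣ N then 0 else ((chiNegThree ℓ : ℤ) : ℤ)) a ∧
        CuspForm.IsLatticeRealized N a ∧
        (∀ q : ℕ, q.Prime → q ≠ 3 → ¬ q ^ 3 ∣ N) ∧
        ∀ ℓ : ℕ, ℓ.Prime → W.IsGoodPrimeFor ℓ → ¬ ℓ ∣ N → ℓ ≠ 3 →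
          (3 : ℤ) ∣ (a ℓ - W.apOfModel ℓ) := fun W hΔ hW hirr => by
  obtain ⟨N, hN, -, hres⟩ := Exit.isResiduallyModular_of_ltConclusion
    (octaOfCurve hΔ hW hirr) (hLT _) W fun ℓ hℓ hgood hℓ3 A hA σ hσ =>
      octaOfCurve_trace hΔ hW hirr ℓ hℓ hgood hℓ3 A hA σ hσ
  exact exists_formal_of_residual hΔ hW hirr hN hres

end FLTAgent.LT.Lattice
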